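/-
S55 / REC2-TOW (GAD-CM), pure algebra, memo helper293 **T4** (helper604): cyclic exactness.

Let `Z` be a finite cyclic group, `0 → A → B → C → 0` a short exact sequence in `Rep k Z` with
`H¹(Z, A) = 0` (Hilbert 90).  Then (`les_surjective`, `les_exact`)

  `H²(Z, A) → H²(Z, B) → H²(Z, C) → 0`   is exact

(`H³(Z, A) ≅ H¹(Z, A) = 0` by periodicity).  Hence (`cyclic_exactness`): if moreover
`|H²(Z, C)|` divides `n` and `inv : H²(Z, B) →+ Q` is an additive map killing the image of
`H²(Z, A)` (reciprocity) and taking a value of order divisible by `n` at some `b₀`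
(a local class of invariant `1/n`), then `inv` induces an INJECTIVE map
`inv̄ : H²(Z, C) →+ Q`, `|H²(Z, C)| = n`, and `H²(Z, C)` is generated by the image of `b₀`.

No `sorry`.
-/
import Fermat.Agent.S55.H295.Core
import Fermat.Agent.S55.T.Spec

set_option autoImplicit false

open CategoryTheory groupCohomology

namespace Fermat.Agent.S55.G.Tow604

open Fermat.Agent.S55

section LES

variable {k Z : Type} [CommRing k] [Group Z] [Finite Z] [IsCyclic Z]

/-- `H²(Z, B) → H²(Z, C)` is surjective when `H¹(Z, A) = 0`, `Z` finite cyclic. -/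
theorem les_surjective (X : ShortComplex (Rep.{0} k Z)) (hX : X.ShortExact)
    (h1 : Limits.IsZero (groupCohomology X.X₁ 1)) :
    Function.Surjective (T.coeffMap X.g 2).hom := by
  have h3 : Limits.IsZero (groupCohomology X.X₁ 3) :=
    (Fermat.Agent.S55.H295.isZero_H1_iff_H3_of_isCyclic X.X₁).1 h1
  intro z
  have hex := mapShortComplex₃_exact hX (i := 2) (j := 3) rfl
  have hδ : (groupCohomology.δ hX 2 3 rfl).hom z = 0 := by
    have : Subsingleton ↑(groupCohomology X.X₁ 3) := ModuleCat.isZero_iff_subsingleton.mp h3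
    exact Subsingleton.elim (α := ↑(groupCohomology X.X₁ 3)) _ 0
  obtain ⟨y, hy⟩ := (ShortComplex.moduleCat_exact_iff _).mp hex z hδ
  exact ⟨y, hy⟩

omit [Finite Z] [IsCyclic Z] in
/-- Exactness of `H²(Z, A) → H²(Z, B) → H²(Z, C)` in the middle (any group). -/
theorem les_exact (X : ShortComplex (Rep.{0} k Z)) (hX : X.ShortExact)
    (b : groupCohomology X.X₂ 2) (hb : (T.coeffMap X.g 2).hom b = 0) :
    ∃ a : groupCohomology X.X₁ 2, (T.coeffMap X.f 2).hom a = b := by
  have hex := mapShortComplex₂_exact hX 2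
  obtain ⟨a, ha⟩ := (ShortComplex.moduleCat_exact_iff _).mp hex b hb
  exact ⟨a, ha⟩

end LES

section Main

variable {Z : Type} [Group Z] [Finite Z] [IsCyclic Z]

/-- **T4 (cyclic exactness).**  See the header. -/
theorem cyclic_exactness (X : ShortComplex (Rep.{0} ℤ Z)) (hX : X.ShortExact)
    (h1 : Limits.IsZero (groupCohomology X.X₁ 1)) (n : ℕ)
    (hUP : T.CardDvd (groupCohomology X.X₃ 2) n)
    {Q : Type} [AddCommGroup Q] (inv : groupCohomology X.X₂ 2 →+ Q)
    (hrec : ∀ a : groupCohomology X.X₁ 2, inv ((T.coeffMap X.f 2).hom a) = 0)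
    (b₀ : groupCohomology X.X₂ 2) (hb₀ : ∀ m : ℕ, m • inv b₀ = 0 → n ∣ m) :
    (∃ invC : groupCohomology X.X₃ 2 →+ Q,
      (∀ b : groupCohomology X.X₂ 2, invC ((T.coeffMap X.g 2).hom b) = inv b) ∧
      Function.Injective invC) ∧
    Nat.card (groupCohomology X.X₃ 2) = n ∧
    ∀ c : groupCohomology X.X₃ 2, ∃ m : ℕ, c = m • (T.coeffMap X.g 2).hom b₀ := by
  obtain ⟨hfin, hdvd⟩ := hUP
  have : Finite (groupCohomology X.X₃ 2) := hfin
  have hsurj := les_surjective (k := ℤ) X hX h1
  -- `inv` vanishes on the kernel of `g_*`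
  have hker : ∀ b : groupCohomology X.X₂ 2, (T.coeffMap X.g 2).hom b = 0 → inv b = 0 := by
    intro b hb
    obtain ⟨a, rfl⟩ := les_exact (k := ℤ) X hX b hb
    exact hrec a
  -- the order of `g_* b₀` is divisible by `n`
  have key : ∀ m : ℕ, m • (T.coeffMap X.g 2).hom b₀ = 0 → n ∣ m := by
    intro m hm
    apply hb₀
    rw [← map_nsmul]
    apply hker
    rw [map_nsmul]
    exact hm
  have hcard : Nat.card (groupCohomology X.X₃ 2) = n :=
    Nat.dvd_antisymm hdvd (key _ (card_nsmul_eq_zero' (G := groupCohomology X.X₃ 2)))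
  -- generation
  have hgen : ∀ c : groupCohomology X.X₃ 2, ∃ m : ℕ, c = m • (T.coeffMap X.g 2).hom b₀ := by
    intro c
    have hord : addOrderOf ((T.coeffMap X.g 2).hom b₀) = Nat.card (groupCohomology X.X₃ 2) := by
      apply Nat.dvd_antisymm (addOrderOf_dvd_natCard _)
      rw [hcard]
      exact key _ (addOrderOf_nsmul_eq_zero _)
    have htop : AddSubgroup.zmultiples ((T.coeffMap X.g 2).hom b₀) = ⊤ := by
      apply AddSubgroup.eq_top_of_card_eq
      rw [Nat.card_zmultiples, hord]
    have hc : c ∈ AddSubgroup.zmultiples ((T.coeffMap X.g 2).hom b₀) :=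
      htop ▸ AddSubgroup.mem_top c
    obtain ⟨m, hm⟩ :=
      (AddSubmonoid.mem_multiples_iff _ _).1 ((mem_multiples_iff_mem_zmultiples).2 hc)
    exact ⟨m, hm.symm⟩
  refine ⟨?_, hcard, hgen⟩
  -- the induced map: `invC c := inv b` for any lift `b` of `c`
  have hwd : ∀ b b' : groupCohomology X.X₂ 2,
      (T.coeffMap X.g 2).hom b = (T.coeffMap X.g 2).hom b' → inv b = inv b' := by
    intro b b' h
    have h0 : (T.coeffMap X.g 2).hom (b - b') = 0 := by rw [map_sub, h, sub_self]
    have := hker _ h0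
    rwa [map_sub, sub_eq_zero] at this
  let lift : groupCohomology X.X₃ 2 → groupCohomology X.X₂ 2 := fun c => (hsurj c).choose
  have hlift : ∀ c, (T.coeffMap X.g 2).hom (lift c) = c := fun c => (hsurj c).choose_spec
  let invC : groupCohomology X.X₃ 2 →+ Q :=
    { toFun := fun c => inv (lift c)
      map_zero' := by
        have : inv (lift 0) = inv 0 := hwd _ _ (by rw [hlift, map_zero])
        rw [this, map_zero]
      map_add' := fun c c' => by
        have : inv (lift (c + c')) = inv (lift c + lift c') :=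
          hwd _ _ (by rw [hlift, map_add, hlift, hlift])
        rw [this, map_add] }
  have hinvC : ∀ b, invC ((T.coeffMap X.g 2).hom b) = inv b := fun b =>
    hwd _ _ (hlift _)
  refine ⟨invC, hinvC, ?_⟩
  rw [injective_iff_map_eq_zero]
  intro c hc
  obtain ⟨m, rfl⟩ := hgen c
  rw [map_nsmul, hinvC] at hc
  obtain ⟨d, rfl⟩ := hb₀ m hc
  rw [mul_smul, ← hcard]
  exact card_nsmul_eq_zero' (G := groupCohomology X.X₃ 2)

end Main

end Fermat.Agent.S55.G.Tow604
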