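/-
S55 / REC2-TOW (GAD-CM), pure algebra, memo helper293 **T6 step 7** (helper604).

`isClassModuleAt_of_order` : let `G` be a finite group, `|G| = p^k m`, `p ∤ m`, and `C : Rep ℤ G`
with the UPPER BOUND for all `p`-subgroups `H ≤ G` (`H¹(H, C) = 0`, `|H²(H, C)|` divides `|H|`).
If `γ ∈ H²(G, C)` has order divisible by `p^k` (`n • γ = 0 → p^k ∣ n`), then `(C, γ)` is a class
module at `p` (`E1.IsClassModuleAt p C γ`): for every `p`-subgroup `H`, `H²(H, C)` has order `|H|`
and is generated by `res_H γ`.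

No Sylow theorem is needed: `cor ∘ res = [G : H]` (`T.CoresSpec`, on main) is applied to each
`p`-subgroup directly.  No `sorry`.
-/
import Fermat.Agent.S55.T.CoresH572
import Fermat.Agent.S55.E1.Defs

set_option autoImplicit false

open CategoryTheory groupCohomology

namespace Fermat.Agent.S55.G.Tow604

open Fermat.Agent.S55

variable {G : Type} [Group G] [Finite G]

/-- If the order of `γ ∈ Hⁿ(G, C)` is divisible by `o`, then the order of `res_H γ` times
`[G : H]` is divisible by `o`. -/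
lemma dvd_mul_index_of_nsmul_resMap_eq_zero (C : Rep.{0} ℤ G) (H : Subgroup G) (n : ℕ)
    (γ : groupCohomology C n) (o : ℕ) (hγ : ∀ j : ℕ, j • γ = 0 → o ∣ j) (m : ℕ)
    (hm : m • (T.resMap C H n).hom γ = 0) : o ∣ m * H.index := by
  obtain ⟨cor, hcor, -⟩ := T.H572.cores ℤ G H n
  apply hγ
  have h1 : (cor C).hom (m • (T.resMap C H n).hom γ) = 0 := by rw [hm, map_zero]
  rw [map_nsmul, hcor, smul_smul] at h1
  exact h1

/-- Arithmetic: `p^k ∣ n * i`, `i * p^j = p^k * m`, `p ∤ m` ⇒ `p^j ∣ n`. -/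
lemma pow_dvd_of_dvd_mul_index {p : ℕ} (hp : p.Prime) {k j m i n : ℕ}
    (hi : i * p ^ j = p ^ k * m) (hm : ¬ p ∣ m) (h : p ^ k ∣ n * i) : p ^ j ∣ n := by
  have h1 : p ^ k * p ^ j ∣ n * i * p ^ j := Nat.mul_dvd_mul_right h _
  rw [mul_assoc, hi] at h1
  have h2 : p ^ k * p ^ j ∣ p ^ k * (n * m) := by
    have : n * (p ^ k * m) = p ^ k * (n * m) := by ring
    rwa [this] at h1
  have h3 : p ^ j ∣ n * m := Nat.dvd_of_mul_dvd_mul_left (pow_pos hp.pos k) h2
  exact (Nat.Coprime.pow_left j ((Nat.Prime.coprime_iff_not_dvd hp).2 hm)).dvd_of_dvd_mul_right h3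

/-- In a finite additive commutative group of order `N`, an element whose order is divisible by
`N` generates the group (by natural multiples). -/
lemma exists_nsmul_eq_of_order {X : Type} [AddCommGroup X] [Finite X] (x : X)
    (hx : ∀ n : ℕ, n • x = 0 → Nat.card X ∣ n) (y : X) : ∃ n : ℕ, y = n • x := by
  have hord : addOrderOf x = Nat.card X :=
    Nat.dvd_antisymm (addOrderOf_dvd_natCard x) (hx _ (addOrderOf_nsmul_eq_zero x))
  have htop : AddSubgroup.zmultiples x = ⊤ := by
    apply AddSubgroup.eq_top_of_card_eq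
    rw [Nat.card_zmultiples, hord]
  have hy : y ∈ AddSubgroup.zmultiples x := htop ▸ AddSubgroup.mem_top y
  obtain ⟨n, hn⟩ := (AddSubmonoid.mem_multiples_iff _ _).1 ((mem_multiples_iff_mem_zmultiples).2 hy)
  exact ⟨n, hn.symm⟩

/-- **T6 step 7.**  A class of order divisible by `|G|_p` in `H²(G, C)`, together with the upper
bound for all `p`-subgroups, makes `(C, γ)` a class module at `p`. -/
theorem isClassModuleAt_of_order (p : ℕ) [hp : Fact p.Prime] (C : Rep.{0} ℤ G)
    (hUP : ∀ H : Subgroup G, IsPGroup p H →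
      Limits.IsZero (groupCohomology (T.resSub C H) 1) ∧
      T.CardDvd (groupCohomology (T.resSub C H) 2) (Nat.card H))
    (γ : groupCohomology C 2) (k m : ℕ) (hcard : Nat.card G = p ^ k * m) (hm : ¬ p ∣ m)
    (hγ : ∀ n : ℕ, n • γ = 0 → p ^ k ∣ n) :
    E1.IsClassModuleAt p C γ := by
  intro H hH
  obtain ⟨h1, hfin, hdvd⟩ := hUP H hH
  have : Finite (groupCohomology (T.resSub C H) 2) := hfin
  obtain ⟨j, hj⟩ := IsPGroup.iff_card.1 hH
  have hidx : H.index * p ^ j = p ^ k * m := by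
    rw [← hj, ← hcard]
    exact H.index_mul_card
  have key : ∀ n : ℕ, n • (T.resMap C H 2).hom γ = 0 → p ^ j ∣ n := fun n hn =>
    pow_dvd_of_dvd_mul_index hp.out hidx hm
      (dvd_mul_index_of_nsmul_resMap_eq_zero C H 2 γ (p ^ k) hγ n hn)
  have hcardX : Nat.card (groupCohomology (T.resSub C H) 2) = p ^ j := by
    apply Nat.dvd_antisymm
    · rw [← hj]; exact hdvd
    · exact key _ (card_nsmul_eq_zero' (G := groupCohomology (T.resSub C H) 2))
  refine ⟨h1, by rw [hcardX, hj], fun x => ?_⟩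
  exact exists_nsmul_eq_of_order ((T.resMap C H 2).hom γ) (fun n hn => by
    rw [hcardX]; exact key n hn) x

end Fermat.Agent.S55.G.Tow604
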